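/-
S55 / NIT / SI : SKELETON of the second inequality for Kummer extensions of degree `p`.
WIP file (contains `sorry`): never import it from a landed file.  Each node `SI-x` below is a task;
the owner proves it in its own file `Fermat/Agent/S55/NIT/SI/<Name>.lean` with EXACTLY this statement.
-/
import Fermat.Agent.S55.NIT.SI.Defs

set_option autoImplicit false

namespace Fermat.Agent.S55.NIT.SI.WIP

open IsDedekindDomain NumberField Fermat.Agent.S55.NIT.SI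
open scoped Pointwise

universe u

variable {p : ℕ} {K : Type u} [Field K] [NumberField K]

/-! ### Counting nodes -/

/-- SI-A (file CardTgt.lean). `∏_{v∈S} [Kˣ : pow v] = p^(2|S| + [K:ℚ])` when `S ⊇ {v | p}`. -/
theorem card_tgt_pow (hp : p.Prime) (D : LocData p K) (S : Finset (Pl K))
    (hpS : ∀ v : Pl K, Over p K v → v ∈ S) :
    Nat.card (Tgt K D.pow S) = p ^ (2 * S.card + Module.finrank ℚ K) := sorry

/-- SI-B (file TotallyComplex.lean). -/
theorem finrank_eq_two_mul (hp : p.Prime) (hp2 : p ≠ 2) {ζ : K} (hζ : IsPrimitiveRoot ζ p) :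
    Module.finrank ℚ K = 2 * InfinitePlace.nrComplexPlaces K := sorry

/-- SI-M (file SUnitIndex.lean). From the Dirichlet `S`-unit theorem (helper15, NIT/FI). -/
theorem sUnitIndex_of_structure (hp : p.Prime) (hp2 : p ≠ 2) {ζ : K} (hζ : IsPrimitiveRoot ζ p)
    (h : ∀ T : Finset (Pl K), Nonempty (Additive ↥(KS K T) ≃+
      Additive ↥(Units.torsion K) × (Fin (Units.rank K + T.card) → ℤ))) :
    SUnitIndex p K := sorry

/-- SI-E (file LineIndex.lean). `[K_S : ⟨a⟩ K_S^p] · p = [K_S : K_S^p]`. -/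
theorem relIndex_lineSub (hp : p.Prime) (hU : SUnitIndex p K) (S : Finset (Pl K)) (a : Kˣ)
    (haS : a ∈ KS K S) (ha : ∀ z : Kˣ, z ^ p ≠ a) :
    (lineSub p K S a).relIndex (KS K S) * p = p ^ (S.card + InfinitePlace.nrComplexPlaces K) :=
  sorry

/-- SI-F0 (file TameIndex.lean). `[U_w : U_w ∩ pow w] = p` for `w ∤ p`. -/
theorem relIndex_pow_Uv (hp : p.Prime) (D : LocData p K) (w : Pl K) (hw : ¬ Over p K w) :
    (D.pow w).relIndex (Uv K w) = p := sorry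

/-! ### Abstract group theory -/

/-- SI-D (file AbstractInf.lean). Cutting a subgroup of index `p^m` out by `m` subgroups of
index `p`. -/
theorem exists_finset_iInf_eq {G ι : Type*} [CommGroup G] (hp : p.Prime) (B : Subgroup G) (m : ℕ)
    (hB : B.index = p ^ m) (H : ι → Subgroup G) (hBH : ∀ i, B ≤ H i) (hH : ∀ i, (H i).index ∣ p)
    (hsep : ∀ u, u ∉ B → ∃ i, u ∉ H i) :
    ∃ W : Finset ι, W.card = m ∧ ∀ u, (∀ i ∈ W, u ∈ H i) → u ∈ B := sorry

/-! ### Auxiliary primes (arithmetic; uses the landed Frobenius density theorem) -/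

/-- SI-C0 (file GaloisHull.lean). A Galois number field containing `K` and `p`-th roots. -/
theorem exists_galois_hull (hp : 0 < p) (a u : K) :
    ∃ (E : Type u) (_ : Field E) (_ : NumberField E) (_ : IsGalois ℚ E) (_ : Algebra K E)
      (α β : E), α ^ p = algebraMap K E a ∧ β ^ p = algebraMap K E u := sorry

/-- SI-C1 (file KummerIndep.lean). Kummer theory: `β ∉ K(α)` gives an automorphism. -/
theorem exists_aut_fix_move (hp : p.Prime) {ζ : K} (hζ : IsPrimitiveRoot ζ p)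
    {E : Type u} [Field E] [NumberField E] [IsGalois ℚ E] [Algebra K E]
    (a u : Kˣ) (hu : ∀ (i : ℕ) (z : Kˣ), u ≠ a ^ i * z ^ p)
    (α β : E) (hα : α ^ p = algebraMap K E a) (hβ : β ^ p = algebraMap K E u) :
    ∃ τ : E ≃ₐ[K] E, τ α = α ∧ τ β ≠ β := sorry

/-- SI-C2 (file ResidueFixed.lean). An integral element fixed by the decomposition group is
congruent to a rational integer. -/
theorem exists_int_sub_mem {E : Type u} [Field E] [NumberField E] [IsGalois ℚ E]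
    (P : Ideal (𝓞 E)) [P.IsPrime] (ℓ : ℕ) (hℓ : ℓ.Prime) (hP : (ℓ : 𝓞 E) ∈ P) (x : 𝓞 E)
    (hx : ∀ σ ∈ MulAction.stabilizer (E ≃ₐ[ℚ] E) P, σ • x = x) :
    ∃ m : ℤ, x - (m : 𝓞 E) ∈ P := sorry

/-- SI-C3 (file SepIntegral.lean). Separation for INTEGRAL `a u`; `B` = excluded rational primes.
Proof: C0, C1, `Fermat.Agent.Lib.FrobDensity.exists_prime_stabilizer_eq_zpowers`, C2. -/
theorem exists_prime_sep_integral (hp : p.Prime) {ζ : K} (hζ : IsPrimitiveRoot ζ p)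
    (a u : 𝓞 K) (ha0 : a ≠ 0) (hu0 : u ≠ 0)
    (hu : ∀ (i : ℕ) (z : K), z ≠ 0 → (u : K) ≠ (a : K) ^ i * z ^ p) (B : Finset ℕ) :
    ∃ (w : Pl K) (ℓ : ℕ), ℓ.Prime ∧ ℓ ∉ B ∧ (ℓ : 𝓞 K) ∈ w.asIdeal ∧
      (∃ m : ℤ, a - (m : 𝓞 K) ^ p ∈ w.asIdeal) ∧ ¬ ∃ y : 𝓞 K, u - y ^ p ∈ w.asIdeal := sorry

/-- SI-C4 (file Sep.lean). Separation, valuation form, general `a u ∈ Kˣ`. Proof: clear
denominators by `p`-th powers of rational integers, put the bad rational primes in `B`, use C3. -/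
theorem exists_place_sep (hp : p.Prime) {ζ : K} (hζ : IsPrimitiveRoot ζ p) (S : Finset (Pl K))
    (a u : Kˣ) (hu : ∀ (i : ℕ) (z : Kˣ), u ≠ a ^ i * z ^ p) :
    ∃ w : Pl K, w ∉ S ∧ ¬ Over p K w ∧ a ∈ Uv K w ∧ u ∈ Uv K w ∧
      (∃ y : Kˣ, w.valuation K ((a : K) - (y : K) ^ p) < 1) ∧
      ¬ ∃ y : Kˣ, w.valuation K ((u : K) - (y : K) ^ p) < 1 := sorry

/-- SI-G (file Aux.lean). The auxiliary primes. Proof: SI-D applied to `G = K_S`,
`B = ⟨a⟩K_S^p`, `H_w = pow w ∩ K_S` (`w ∉ S`, `a ∈ pow w`), with SI-E, SI-F0, SI-C4. -/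
theorem exists_aux (hp : p.Prime) {ζ : K} (hζ : IsPrimitiveRoot ζ p) (D : LocData p K)
    (hU : SUnitIndex p K) (S : Finset (Pl K)) (hpS : ∀ v : Pl K, Over p K v → v ∈ S)
    (a : Kˣ) (haS : a ∈ KS K S) (ha : ∀ z : Kˣ, z ^ p ≠ a) :
    ∃ W : Finset (Pl K), Disjoint S W ∧ (∀ w ∈ W, a ∈ D.pow w) ∧
      W.card + 1 = S.card + InfinitePlace.nrComplexPlaces K ∧
      ∀ u ∈ KS K S, (∀ w ∈ W, u ∈ D.pow w) → u ∈ lineSub p K S a := sorry

/-! ### The key lemma -/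

/-- SI-H (file SurjW.lean). `K_{S∪W} → ∏_{w∈W} Kˣ/pow w` is onto. -/
theorem img_pow_W_eq_top (hp : p.Prime) (D : LocData p K) (hU : SUnitIndex p K)
    (S : Finset (Pl K)) (hpS : ∀ v : Pl K, Over p K v → v ∈ S) (hCl : ClTriv K S)
    (a : Kˣ) (haS : a ∈ KS K S) (ha : ∀ z : Kˣ, z ^ p ≠ a) (W : Finset (Pl K))
    (hSW : Disjoint S W) (hcard : W.card + 1 = S.card + InfinitePlace.nrComplexPlaces K)
    (hW : ∀ u ∈ KS K S, (∀ w ∈ W, u ∈ D.pow w) → u ∈ lineSub p K S a) :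
    img K D.pow W (KS K (uni K S W)) = ⊤ := sorry

/-- SI-I (file Key.lean). An `S∪W`-unit which is a local `p`-th power on `S` is a `p`-th power. -/
theorem key (D : LocData p K) (hFI : FirstIneq p K D)
    (S : Finset (Pl K)) (hpS : ∀ v : Pl K, Over p K v → v ∈ S) (hCl : ClTriv K S)
    (W : Finset (Pl K)) (hsurj : img K D.pow W (KS K (uni K S W)) = ⊤)
    (y : Kˣ) (hy : y ∈ KS K (uni K S W)) (hyS : ∀ v ∈ S, y ∈ D.pow v) : ∃ z : Kˣ, z ^ p = y := sorry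

/-! ### Exports -/

/-- SI-J = SI-main (file Main.lean). -/
theorem main (hp : p.Prime) (hp2 : p ≠ 2) {ζ : K} (hζ : IsPrimitiveRoot ζ p) (D : LocData p K)
    (hFI : FirstIneq p K D) (hU : SUnitIndex p K)
    (S : Finset (Pl K)) (hpS : ∀ v : Pl K, Over p K v → v ∈ S) (hCl : ClTriv K S)
    (a : Kˣ) (haS : a ∈ KS K S) (ha : ∀ z : Kˣ, z ^ p ≠ a) :
    ∃ W : Finset (Pl K), Disjoint S W ∧ (∀ w ∈ W, a ∈ D.pow w) ∧
      (img K D.pow S (KS K (uni K S W))).index = p := sorry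

/-- SI-K (file MainNrm.lean). The second inequality cut down to `S`. -/
theorem index_img_nrm_dvd (hp : p.Prime) (hp2 : p ≠ 2) {ζ : K} (hζ : IsPrimitiveRoot ζ p)
    (D : LocData p K) (hFI : FirstIneq p K D) (hU : SUnitIndex p K)
    (S : Finset (Pl K)) (hpS : ∀ v : Pl K, Over p K v → v ∈ S) (hCl : ClTriv K S)
    (a : Kˣ) (haS : a ∈ KS K S) (ha : ∀ z : Kˣ, z ^ p ≠ a) :
    (img K (D.nrm a) S (GamS p K D a S)).index ∣ p := sorry

/-- SI-L (file CutDown.lean). Every finitely supported family can be moved into `S` by a global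
element. -/
theorem cut_down (D : LocData p K) (S : Finset (Pl K)) (hpS : ∀ v : Pl K, Over p K v → v ∈ S)
    (hCl : ClTriv K S) (a : Kˣ) (haS : a ∈ KS K S) (T : Finset (Pl K)) (x : Pl K → Kˣ) :
    ∃ g : Kˣ, (∀ v ∈ T, v ∉ S → x v * g ∈ D.nrm a v) ∧ ∀ v : Pl K, v ∉ T → v ∉ S → g ∈ D.nrm a v :=
  sorry

end Fermat.Agent.S55.NIT.SI.WIP
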